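import Mathlib
import Fermat.Agent.H63.H1.Interfaces

/-!
# P-H1 row 759 (H1-DIM2, helper57): `2 dim ekerTwo + #Fix σ = #Q` over every field

For an involution `σ` of a finite set `Q` choose an injection `e : Q → ℕ` (a linear order) and
let `R = {q | e q < e (σ q)}`.  Restriction to `R` is a linear equivalence
`ekerTwo k σ ≃ (R → k)`, and `Q` is the disjoint union of `R`, `σ R` and the fixed points.
-/

set_option autoImplicit false
set_option linter.unusedSectionVars false
set_option linter.style.haveILetI false

open Module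

namespace Fermat.Agent.H57.H1

open Fermat.Agent.H63.H1

section

variable (k : Type) [Field k] {Q : Type} [Fintype Q] [DecidableEq Q] (σ : Q → Q)
  (hσ : ∀ q, σ (σ q) = q) (e : Q → ℕ) (he : Function.Injective e)

/-- The representatives: `q` with `e q < e (σ q)`. -/
abbrev Rep : Type := {q : Q // e q < e (σ q)}

/-- The extension of a function on the representatives to an element of `ekerTwo`. -/
def extFun (h : Rep σ e → k) (q : Q) : k :=
  if hq : e q < e (σ q) then h ⟨q, hq⟩
  else if hq' : e (σ q) < e q then - h ⟨σ q, by rw [hσ q]; exact hq'⟩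
  else 0

include he in
theorem extFun_mem (h : Rep σ e → k) : extFun k σ hσ e h ∈ ekerTwo k σ := by
  intro q
  refine ⟨?_, fun hq => ?_⟩
  · rcases lt_trichotomy (e q) (e (σ q)) with h1 | h1 | h1
    · have h2 : ¬ e (σ q) < e (σ (σ q)) := by
        rw [hσ q]
        exact not_lt.mpr h1.le
      have h3 : e (σ (σ q)) < e (σ q) := by
        rw [hσ q]
        exact h1
      have h4 : (⟨σ (σ q), by rw [hσ (σ q)]; exact h3⟩ : Rep σ e) = ⟨q, h1⟩ :=
        Subtype.ext (hσ q)
      rw [extFun, dif_pos h1, extFun, dif_neg h2, dif_pos h3, h4, add_neg_cancel]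
    · have h2 : σ q = q := (he h1).symm
      have h3 : ¬ e q < e (σ q) := by rw [h2]; exact lt_irrefl _
      have h4 : ¬ e (σ q) < e q := by rw [h2]; exact lt_irrefl _
      have h5 : extFun k σ hσ e h q = 0 := by rw [extFun, dif_neg h3, dif_neg h4]
      rw [h2, h5, add_zero]
    · have h2 : ¬ e q < e (σ q) := not_lt.mpr h1.le
      have h3 : e (σ q) < e (σ (σ q)) := by
        rw [hσ q]
        exact h1
      rw [extFun, dif_neg h2, dif_pos h1, extFun, dif_pos h3, neg_add_cancel]
  · have h3 : ¬ e q < e (σ q) := by rw [hq]; exact lt_irrefl _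
    have h4 : ¬ e (σ q) < e q := by rw [hq]; exact lt_irrefl _
    rw [extFun, dif_neg h3, dif_neg h4]

/-- Restriction to the representatives, as a linear equivalence. -/
def restrictEquiv : ekerTwo k σ ≃ₗ[k] (Rep σ e → k) where
  toFun f := fun r => (f : Q → k) r.1
  map_add' _ _ := rfl
  map_smul' _ _ := rfl
  invFun h := ⟨extFun k σ hσ e h, extFun_mem k σ hσ e he h⟩
  left_inv := by
    rintro ⟨f, hf⟩
    apply Subtype.ext
    funext q
    show extFun k σ hσ e (fun r => f r.1) q = f q
    rcases lt_trichotomy (e q) (e (σ q)) with h1 | h1 | h1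
    · rw [extFun, dif_pos h1]
    · have h2 : σ q = q := (he h1).symm
      have h3 : ¬ e q < e (σ q) := by rw [h2]; exact lt_irrefl _
      have h4 : ¬ e (σ q) < e q := by rw [h2]; exact lt_irrefl _
      rw [extFun, dif_neg h3, dif_neg h4, (hf q).2 h2]
    · have h2 : ¬ e q < e (σ q) := not_lt.mpr h1.le
      rw [extFun, dif_neg h2, dif_pos h1]
      exact neg_eq_of_add_eq_zero_left (hf q).1
  right_inv := by
    intro h
    funext r
    show extFun k σ hσ e h r.1 = h r
    rw [extFun, dif_pos r.2]

include hσ he in
/-- The counting identity `#Q = 2 #R + #Fix`. -/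
theorem card_eq_two_mul_rep :
    Fintype.card Q = 2 * Fintype.card (Rep σ e) + Fintype.card {q : Q // σ q = q} := by
  classical
  have htri : ∀ q : Q, (1 : ℕ) = (if e q < e (σ q) then 1 else 0)
      + (if e (σ q) < e q then 1 else 0) + (if σ q = q then 1 else 0) := by
    intro q
    rcases lt_trichotomy (e q) (e (σ q)) with h1 | h1 | h1
    · have h2 : ¬ e (σ q) < e q := not_lt.mpr h1.le
      have h3 : ¬ σ q = q := fun h => by rw [h] at h1; exact lt_irrefl _ h1
      rw [if_pos h1, if_neg h2, if_neg h3]
    · have h2 : σ q = q := (he h1).symm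
      have h3 : ¬ e q < e (σ q) := by rw [h2]; exact lt_irrefl _
      have h4 : ¬ e (σ q) < e q := by rw [h2]; exact lt_irrefl _
      rw [if_neg h3, if_neg h4, if_pos h2]
    · have h2 : ¬ e q < e (σ q) := not_lt.mpr h1.le
      have h3 : ¬ σ q = q := fun h => by rw [h] at h1; exact lt_irrefl _ h1
      rw [if_neg h2, if_pos h1, if_neg h3]
  have h1 : Fintype.card Q = ∑ _q : Q, 1 := by
    rw [Finset.sum_const, smul_eq_mul, mul_one, Finset.card_univ]
  have hswap : (Finset.univ.filter fun q : Q => e (σ q) < e q).card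
      = (Finset.univ.filter fun q : Q => e q < e (σ q)).card := by
    refine Finset.card_nbij' σ σ ?_ ?_ ?_ ?_
    · intro q hq
      simp only [Finset.coe_filter, Finset.mem_univ, true_and, Set.mem_ofPred_eq] at hq ⊢
      rw [hσ q]
      exact hq
    · intro q hq
      simp only [Finset.coe_filter, Finset.mem_univ, true_and, Set.mem_ofPred_eq] at hq ⊢
      rw [hσ q]
      exact hq
    · intro q _
      exact hσ q
    · intro q _
      exact hσ q
  rw [h1, Finset.sum_congr rfl (fun q _ => htri q), Finset.sum_add_distrib,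
    Finset.sum_add_distrib, ← Finset.card_filter, ← Finset.card_filter, ← Finset.card_filter,
    hswap, Fintype.card_subtype, Fintype.card_subtype]
  ring

end

/-- **H1-DIM (two)**: `2 dim ekerTwo + #Fix σ = #Q` over every field. -/
theorem orbitDimTwo : OrbitDimTwoStatement := by
  classical
  intro k _ Q _ _ σ hσ
  let e : Q → ℕ := fun q => (Fintype.equivFin Q q : ℕ)
  have he : Function.Injective e := fun a b h =>
    (Fintype.equivFin Q).injective (Fin.ext h)
  have h1 : finrank k (ekerTwo k σ) = Fintype.card (Rep σ e) := by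
    rw [(restrictEquiv k σ hσ e he).finrank_eq, Module.finrank_fintype_fun_eq_card]
  rw [h1, card_eq_two_mul_rep σ hσ e he]

end Fermat.Agent.H57.H1
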